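/-
S41lib / PD / Heis / Basic (lead).

Heisenberg lifts.  For a group `Γ`, a commutative ring `R` and two additive characters
`φ φ' : Additive Γ →+ R`, a *Heisenberg lift* of `(φ, φ')` is a function `ζ : Γ → R` with
`ζ (γ γ') = ζ γ + ζ γ' + φ γ · φ' γ'`  (i.e. `γ ↦ (φ γ, φ' γ, ζ γ)` is a homomorphism into the
Heisenberg group).  Elementary calculus: value at `1`, inverses, conjugation, powers, pull-back,
difference of two lifts, rescaling.
-/
import Mathlib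

set_option autoImplicit false

namespace Fermat.Agent.S41lib.PD.Heis

variable {Γ : Type*} [Group Γ] {R : Type*} [CommRing R]

/-- `ζ` is a Heisenberg lift of the pair of additive characters `(φ, φ')`. -/
def IsHeisLift (φ φ' : Additive Γ →+ R) (ζ : Γ → R) : Prop :=
  ∀ γ γ' : Γ, ζ (γ * γ') = ζ γ + ζ γ' + φ (Additive.ofMul γ) * φ' (Additive.ofMul γ')

namespace IsHeisLift

variable {φ φ' : Additive Γ →+ R} {ζ : Γ → R}

theorem map_mul (h : IsHeisLift φ φ' ζ) (γ γ' : Γ) :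
    ζ (γ * γ') = ζ γ + ζ γ' + φ (Additive.ofMul γ) * φ' (Additive.ofMul γ') := h γ γ'

theorem map_one (h : IsHeisLift φ φ' ζ) : ζ 1 = 0 := by
  have h1 := h 1 1
  rw [mul_one, ofMul_one, map_zero, map_zero, mul_zero, add_zero] at h1
  exact left_eq_add.mp h1

theorem map_inv (h : IsHeisLift φ φ' ζ) (γ : Γ) :
    ζ γ⁻¹ = -ζ γ + φ (Additive.ofMul γ) * φ' (Additive.ofMul γ) := by
  have h1 := h γ γ⁻¹
  rw [mul_inv_cancel, h.map_one, ofMul_inv, map_neg] at h1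
  linear_combination -h1

theorem map_conj (h : IsHeisLift φ φ' ζ) (δ γ : Γ) :
    ζ (δ * γ * δ⁻¹) = ζ γ + φ (Additive.ofMul δ) * φ' (Additive.ofMul γ)
      - φ (Additive.ofMul γ) * φ' (Additive.ofMul δ) := by
  rw [h (δ * γ) δ⁻¹, h δ γ, h.map_inv δ, ofMul_mul, map_add, ofMul_inv, map_neg]
  ring

/-- a Heisenberg lift is a class function on `ker φ ∩ ker φ'` -/
theorem map_conj_of_ker (h : IsHeisLift φ φ' ζ) (δ γ : Γ) (h1 : φ (Additive.ofMul γ) = 0)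
    (h2 : φ' (Additive.ofMul γ) = 0) : ζ (δ * γ * δ⁻¹) = ζ γ := by
  rw [h.map_conj, h1, h2]
  ring

theorem map_conj_of_ker' (h : IsHeisLift φ φ' ζ) (δ γ : Γ) (h1 : φ (Additive.ofMul γ) = 0)
    (h2 : φ' (Additive.ofMul γ) = 0) : ζ (δ⁻¹ * γ * δ) = ζ γ := by
  have := h.map_conj_of_ker δ⁻¹ γ h1 h2
  rwa [inv_inv] at this

theorem map_mul_of_left (h : IsHeisLift φ φ' ζ) (γ γ' : Γ) (h1 : φ (Additive.ofMul γ) = 0) :
    ζ (γ * γ') = ζ γ + ζ γ' := by
  rw [h γ γ', h1, zero_mul, add_zero]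

theorem map_mul_of_right (h : IsHeisLift φ φ' ζ) (γ γ' : Γ) (h1 : φ' (Additive.ofMul γ') = 0) :
    ζ (γ * γ') = ζ γ + ζ γ' := by
  rw [h γ γ', h1, mul_zero, add_zero]

theorem map_pow_of_ker (h : IsHeisLift φ φ' ζ) (γ : Γ) (h1 : φ (Additive.ofMul γ) = 0) (n : ℕ) :
    ζ (γ ^ n) = n * ζ γ := by
  induction n with
  | zero => simp [h.map_one]
  | succ n ih =>
    rw [pow_succ', h.map_mul_of_left γ _ h1, ih]
    push_cast
    ring

/-- pull-back along a group homomorphism -/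
theorem comp {Γ₁ : Type*} [Group Γ₁] (h : IsHeisLift φ φ' ζ) (θ : Γ₁ →* Γ) :
    IsHeisLift (φ.comp (MonoidHom.toAdditive θ)) (φ'.comp (MonoidHom.toAdditive θ)) (ζ ∘ θ) := by
  intro γ γ'
  show ζ (θ (γ * γ')) = ζ (θ γ) + ζ (θ γ') + φ (Additive.ofMul (θ γ)) * φ' (Additive.ofMul (θ γ'))
  rw [_root_.map_mul, h (θ γ) (θ γ')]

/-- adding a homomorphism to a lift gives a lift -/
theorem add_hom (h : IsHeisLift φ φ' ζ) (ψ : Additive Γ →+ R) :
    IsHeisLift φ φ' (fun γ => ζ γ + ψ (Additive.ofMul γ)) := by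
  intro γ γ'
  show ζ (γ * γ') + ψ (Additive.ofMul (γ * γ')) = _
  rw [h, ofMul_mul, map_add]
  ring

/-- two lifts of the same pair differ by a homomorphism -/
theorem exists_hom_of_two {ζ₂ : Γ → R} (h : IsHeisLift φ φ' ζ) (h₂ : IsHeisLift φ φ' ζ₂) :
    ∃ ψ : Additive Γ →+ R, ∀ γ, ζ₂ γ = ζ γ + ψ (Additive.ofMul γ) := by
  refine ⟨AddMonoidHom.mk' (fun a => ζ₂ (Additive.toMul a) - ζ (Additive.toMul a)) ?_, ?_⟩
  · intro a b
    show ζ₂ (Additive.toMul a * Additive.toMul b) - ζ (Additive.toMul a * Additive.toMul b) = _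
    rw [h, h₂]
    ring
  · intro γ
    show ζ₂ γ = ζ γ + (ζ₂ γ - ζ γ)
    ring

/-- a lift of `(φ, n • φ')` divided by `n` is a lift of `(φ, φ')` (over `ℚ`) -/
theorem div_nat {φ φ' : Additive Γ →+ ℚ} {Z : Γ → ℚ} {n : ℕ} (hn : n ≠ 0)
    (h : ∀ γ γ' : Γ, Z (γ * γ') = Z γ + Z γ' +
      (n : ℚ) * (φ (Additive.ofMul γ) * φ' (Additive.ofMul γ'))) :
    IsHeisLift φ φ' (fun γ => Z γ / n) := by
  intro γ γ'
  show Z (γ * γ') / n = Z γ / n + Z γ' / n + _
  have hn' : (n : ℚ) ≠ 0 := by exact_mod_cast hn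
  rw [h]
  field_simp

/-- swapping the roles: `ζ' γ := φ γ φ' γ - ζ γ` lifts `(φ', φ)` -/
theorem swap (h : IsHeisLift φ φ' ζ) :
    IsHeisLift φ' φ (fun γ => φ (Additive.ofMul γ) * φ' (Additive.ofMul γ) - ζ γ) := by
  intro γ γ'
  show φ (Additive.ofMul (γ * γ')) * φ' (Additive.ofMul (γ * γ')) - ζ (γ * γ') = _
  rw [h, ofMul_mul, map_add, map_add]
  ring

/-- a lift vanishes on an involution killed by `φ` (over `ℚ`) -/
theorem map_involution {φ φ' : Additive Γ →+ ℚ} {ζ : Γ → ℚ} (h : IsHeisLift φ φ' ζ) (z : Γ)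
    (hz : z * z = 1) (h1 : φ (Additive.ofMul z) = 0) : ζ z = 0 := by
  have h2 := h.map_mul_of_left z z h1
  rw [hz, h.map_one] at h2
  linarith

/-- a lift is invariant under multiplication by a central involution killed by `φ` and `φ'` -/
theorem map_involution_mul {φ φ' : Additive Γ →+ ℚ} {ζ : Γ → ℚ} (h : IsHeisLift φ φ' ζ) (z : Γ)
    (hz : z * z = 1) (h1 : φ (Additive.ofMul z) = 0) (γ : Γ) : ζ (z * γ) = ζ γ := by
  rw [h.map_mul_of_left z γ h1, h.map_involution z hz h1, zero_add]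

end IsHeisLift

end Fermat.Agent.S41lib.PD.Heis
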