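/-
S41lib / PD / Heis / Free (lead).

The Heisenberg group `HeisGrp R = R × R × R` with `(a,b,c)(a',b',c') = (a+a', b+b', c+c'+a b')`,
and the existence of Heisenberg lifts on free groups.
-/
import Mathlib
import Fermat.Agent.S41lib.PD.Heis.Basic

set_option autoImplicit false

namespace Fermat.Agent.S41lib.PD.Heis

/-- the Heisenberg group over a commutative ring -/
@[ext] structure HeisGrp (R : Type*) where
  /-- first coordinate -/
  a : R
  /-- second coordinate -/
  b : R
  /-- central coordinate -/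
  c : R

namespace HeisGrp

variable {R : Type*} [CommRing R]

instance : Mul (HeisGrp R) := ⟨fun x y => ⟨x.a + y.a, x.b + y.b, x.c + y.c + x.a * y.b⟩⟩
instance : One (HeisGrp R) := ⟨⟨0, 0, 0⟩⟩
instance : Inv (HeisGrp R) := ⟨fun x => ⟨-x.a, -x.b, -x.c + x.a * x.b⟩⟩

@[simp] theorem mul_a (x y : HeisGrp R) : (x * y).a = x.a + y.a := rfl
@[simp] theorem mul_b (x y : HeisGrp R) : (x * y).b = x.b + y.b := rfl
@[simp] theorem mul_c (x y : HeisGrp R) : (x * y).c = x.c + y.c + x.a * y.b := rfl
@[simp] theorem one_a : (1 : HeisGrp R).a = 0 := rfl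
@[simp] theorem one_b : (1 : HeisGrp R).b = 0 := rfl
@[simp] theorem one_c : (1 : HeisGrp R).c = 0 := rfl
@[simp] theorem inv_a (x : HeisGrp R) : (x⁻¹).a = -x.a := rfl
@[simp] theorem inv_b (x : HeisGrp R) : (x⁻¹).b = -x.b := rfl
@[simp] theorem inv_c (x : HeisGrp R) : (x⁻¹).c = -x.c + x.a * x.b := rfl

instance : Group (HeisGrp R) :=
  Group.ofLeftAxioms
    (by intro x y z; ext <;> simp <;> ring)
    (by intro x; ext <;> simp)
    (by intro x; ext <;> simp)

/-- the projection to the first coordinate -/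
def projA : HeisGrp R →* Multiplicative R where
  toFun x := Multiplicative.ofAdd x.a
  map_one' := rfl
  map_mul' _ _ := rfl

/-- the projection to the second coordinate -/
def projB : HeisGrp R →* Multiplicative R where
  toFun x := Multiplicative.ofAdd x.b
  map_one' := rfl
  map_mul' _ _ := rfl

end HeisGrp

variable {Γ : Type*} [Group Γ] {R : Type*} [CommRing R]

/-- A homomorphism to the Heisenberg group whose first two coordinates are `φ, φ'` gives a
Heisenberg lift. -/
theorem isHeisLift_of_hom (φ φ' : Additive Γ →+ R) (F : Γ →* HeisGrp R)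
    (ha : ∀ γ, (F γ).a = φ (Additive.ofMul γ)) (hb : ∀ γ, (F γ).b = φ' (Additive.ofMul γ)) :
    IsHeisLift φ φ' (fun γ => (F γ).c) := by
  intro γ γ'
  show (F (γ * γ')).c = (F γ).c + (F γ').c + _
  rw [map_mul, HeisGrp.mul_c, ha, hb]

/-- **Heisenberg lifts exist on free groups.** -/
theorem exists_heisLift_of_isFreeGroup [IsFreeGroup Γ] (φ φ' : Additive Γ →+ R) :
    ∃ ζ : Γ → R, IsHeisLift φ φ' ζ := by
  classical
  let f : IsFreeGroup.Generators Γ → HeisGrp R := fun g =>
    ⟨φ (Additive.ofMul (IsFreeGroup.of g)), φ' (Additive.ofMul (IsFreeGroup.of g)), 0⟩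
  let F : Γ →* HeisGrp R := IsFreeGroup.lift f
  have hF : ∀ g, F (IsFreeGroup.of g) = f g := fun g => IsFreeGroup.lift_of f g
  have ha : HeisGrp.projA.comp F = AddMonoidHom.toMultiplicative φ := by
    apply IsFreeGroup.ext_hom
    intro g
    show Multiplicative.ofAdd (F (IsFreeGroup.of g)).a = _
    rw [hF]
    rfl
  have hb : HeisGrp.projB.comp F = AddMonoidHom.toMultiplicative φ' := by
    apply IsFreeGroup.ext_hom
    intro g
    show Multiplicative.ofAdd (F (IsFreeGroup.of g)).b = _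
    rw [hF]
    rfl
  refine ⟨fun γ => (F γ).c, isHeisLift_of_hom φ φ' F ?_ ?_⟩
  · intro γ
    have := DFunLike.congr_fun ha γ
    exact this
  · intro γ
    have := DFunLike.congr_fun hb γ
    exact this

/-- Heisenberg lifts can be transported along a group isomorphism. -/
theorem exists_heisLift_of_mulEquiv {Γ₁ : Type*} [Group Γ₁] (e : Γ ≃* Γ₁)
    (H : ∀ ψ ψ' : Additive Γ₁ →+ R, ∃ ζ : Γ₁ → R, IsHeisLift ψ ψ' ζ) (φ φ' : Additive Γ →+ R) :
    ∃ ζ : Γ → R, IsHeisLift φ φ' ζ := by
  obtain ⟨ζ, hζ⟩ := H (φ.comp (MonoidHom.toAdditive e.symm.toMonoidHom))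
    (φ'.comp (MonoidHom.toAdditive e.symm.toMonoidHom))
  refine ⟨ζ ∘ e, ?_⟩
  have h := hζ.comp e.toMonoidHom
  intro γ γ'
  have h' := h γ γ'
  simpa using h'

end Fermat.Agent.S41lib.PD.Heis
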