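/-
S41lib / PD / Heis / Sanov (lead).

The Sanov subgroup `⟨(1 2;0 1), (1 0;2 1)⟩ ≤ SL(2,ℤ)` is free (ping-pong on the nonzero integer
vectors) and contains `Γ(4)` (Euclidean descent), hence has finite index.
-/
import Mathlib

set_option autoImplicit false

namespace Fermat.Agent.S41lib.PD.Heis

open Matrix Matrix.SpecialLinearGroup CongruenceSubgroup
open scoped MatrixGroups Pointwise

/-! ### Elementary matrices -/

/-- the upper elementary matrix `(1 t; 0 1)` -/
def E12 (t : ℤ) : SL(2, ℤ) := ⟨!![1, t; 0, 1], by simp [Matrix.det_fin_two]⟩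

/-- the lower elementary matrix `(1 0; t 1)` -/
def E21 (t : ℤ) : SL(2, ℤ) := ⟨!![1, 0; t, 1], by simp [Matrix.det_fin_two]⟩

@[simp] theorem E12_apply_00 (t : ℤ) : (E12 t) 0 0 = 1 := rfl
@[simp] theorem E12_apply_01 (t : ℤ) : (E12 t) 0 1 = t := rfl
@[simp] theorem E12_apply_10 (t : ℤ) : (E12 t) 1 0 = 0 := rfl
@[simp] theorem E12_apply_11 (t : ℤ) : (E12 t) 1 1 = 1 := rfl
@[simp] theorem E21_apply_00 (t : ℤ) : (E21 t) 0 0 = 1 := rfl
@[simp] theorem E21_apply_01 (t : ℤ) : (E21 t) 0 1 = 0 := rfl
@[simp] theorem E21_apply_10 (t : ℤ) : (E21 t) 1 0 = t := rfl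
@[simp] theorem E21_apply_11 (t : ℤ) : (E21 t) 1 1 = 1 := rfl

theorem sl2_ext {g h : SL(2, ℤ)} (h00 : g 0 0 = h 0 0) (h01 : g 0 1 = h 0 1)
    (h10 : g 1 0 = h 1 0) (h11 : g 1 1 = h 1 1) : g = h := by
  apply Subtype.ext
  ext i j
  fin_cases i <;> fin_cases j <;> assumption

theorem sl2_mul_apply (g h : SL(2, ℤ)) (i j : Fin 2) :
    (g * h) i j = g i 0 * h 0 j + g i 1 * h 1 j := by
  rw [Matrix.SpecialLinearGroup.coe_mul, Matrix.mul_apply, Fin.sum_univ_two]

theorem sl2_det (g : SL(2, ℤ)) : g 0 0 * g 1 1 - g 0 1 * g 1 0 = 1 := by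
  have := g.det_coe
  rwa [Matrix.det_fin_two] at this

theorem E12_add (s t : ℤ) : E12 (s + t) = E12 s * E12 t := by
  apply sl2_ext <;> simp [sl2_mul_apply, add_comm]

theorem E21_add (s t : ℤ) : E21 (s + t) = E21 s * E21 t := by
  apply sl2_ext <;> simp [sl2_mul_apply]

theorem E12_zero : E12 0 = 1 := by
  apply sl2_ext <;> simp

theorem E21_zero : E21 0 = 1 := by
  apply sl2_ext <;> simp

theorem E12_inv (t : ℤ) : (E12 t)⁻¹ = E12 (-t) := by
  rw [inv_eq_iff_mul_eq_one, ← E12_add, add_neg_cancel, E12_zero]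

theorem E21_inv (t : ℤ) : (E21 t)⁻¹ = E21 (-t) := by
  rw [inv_eq_iff_mul_eq_one, ← E21_add, add_neg_cancel, E21_zero]

/-- `t ↦ (1 0; t 1)` as a homomorphism -/
def E21Hom : Multiplicative ℤ →* SL(2, ℤ) where
  toFun t := E21 (Multiplicative.toAdd t)
  map_one' := E21_zero
  map_mul' _ _ := E21_add _ _

theorem E21_two_zpow (k : ℤ) : (E21 2) ^ k = E21 (2 * k) := by
  have h := map_zpow E21Hom (Multiplicative.ofAdd (2 : ℤ)) k
  have h2 : E21Hom (Multiplicative.ofAdd (2 : ℤ)) = E21 2 := rfl
  rw [h2] at h
  rw [← h]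
  show E21 (Multiplicative.toAdd ((Multiplicative.ofAdd (2 : ℤ)) ^ k)) = _
  rw [← ofAdd_zsmul, toAdd_ofAdd, smul_eq_mul, mul_comm]

/-! ### The action on nonzero integer vectors and ping-pong -/

/-- nonzero integer vectors -/
@[ext] structure NZVec where
  /-- first coordinate -/
  x : ℤ
  /-- second coordinate -/
  y : ℤ
  ne : x ≠ 0 ∨ y ≠ 0

instance : MulAction SL(2, ℤ) NZVec where
  smul g v := ⟨g 0 0 * v.x + g 0 1 * v.y, g 1 0 * v.x + g 1 1 * v.y, by
    by_contra hcon
    obtain ⟨h1, h2⟩ := not_or.mp hcon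
    rw [not_not] at h1 h2
    have hd := sl2_det g
    have hx : v.x = 0 := by
      linear_combination (-v.x) * hd + g 1 1 * h1 - g 0 1 * h2
    have hy : v.y = 0 := by
      linear_combination (-v.y) * hd - g 1 0 * h1 + g 0 0 * h2
    rcases v.ne with h | h
    · exact h hx
    · exact h hy⟩
  one_smul v := by
    apply NZVec.ext
    · show (1 : SL(2, ℤ)) 0 0 * v.x + (1 : SL(2, ℤ)) 0 1 * v.y = v.x
      simp
    · show (1 : SL(2, ℤ)) 1 0 * v.x + (1 : SL(2, ℤ)) 1 1 * v.y = v.y
      simp
  mul_smul g h v := by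
    apply NZVec.ext
    · show (g * h) 0 0 * v.x + (g * h) 0 1 * v.y =
        g 0 0 * (h 0 0 * v.x + h 0 1 * v.y) + g 0 1 * (h 1 0 * v.x + h 1 1 * v.y)
      rw [sl2_mul_apply, sl2_mul_apply]
      ring
    · show (g * h) 1 0 * v.x + (g * h) 1 1 * v.y =
        g 1 0 * (h 0 0 * v.x + h 0 1 * v.y) + g 1 1 * (h 1 0 * v.x + h 1 1 * v.y)
      rw [sl2_mul_apply, sl2_mul_apply]
      ring

theorem smul_x (g : SL(2, ℤ)) (v : NZVec) : (g • v).x = g 0 0 * v.x + g 0 1 * v.y := rfl
theorem smul_y (g : SL(2, ℤ)) (v : NZVec) : (g • v).y = g 1 0 * v.x + g 1 1 * v.y := rfl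

/-- the two Sanov generators -/
def sanovGen : Fin 2 → SL(2, ℤ) := ![E12 2, E21 2]

/-- ping-pong sets `X` -/
def ppX : Fin 2 → Set NZVec :=
  ![{v | v.y = 0 ∨ (0 < v.y ∧ v.y ≤ v.x) ∨ (v.y < 0 ∧ v.x ≤ v.y)},
    {v | v.x = 0 ∨ (0 < v.x ∧ v.x < v.y) ∨ (v.x < 0 ∧ v.y < v.x)}]

/-- ping-pong sets `Y` -/
def ppY : Fin 2 → Set NZVec :=
  ![{v | (0 < v.y ∧ v.x < -v.y) ∨ (v.y < 0 ∧ -v.y < v.x)},
    {v | (0 < v.x ∧ v.y ≤ -v.x) ∨ (v.x < 0 ∧ -v.x ≤ v.y)}]

theorem sanov_lift_injective : Function.Injective (FreeGroup.lift sanovGen) := by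
  apply FreeGroup.injective_lift_of_ping_pong sanovGen ppX ppY
  · -- nonempty
    intro i
    fin_cases i
    · exact ⟨⟨1, 0, Or.inl one_ne_zero⟩, Or.inl rfl⟩
    · exact ⟨⟨0, 1, Or.inr one_ne_zero⟩, Or.inl rfl⟩
  · -- X disjoint
    intro i j hij
    fin_cases i <;> fin_cases j <;> simp only [ne_eq, not_true_eq_false, Fin.zero_eta, Fin.mk_one,
      Fin.isValue] at hij ⊢
    all_goals
      rw [Function.onFun, Set.disjoint_left]
      intro v hv hv'
      simp only [ppX, Fin.isValue, Matrix.cons_val_zero, Matrix.cons_val_one, Set.mem_ofPred_eq,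
        Matrix.cons_val_fin_one] at hv hv'
      have := v.ne
      omega
  · -- Y disjoint
    intro i j hij
    fin_cases i <;> fin_cases j <;> simp only [ne_eq, not_true_eq_false, Fin.zero_eta, Fin.mk_one,
      Fin.isValue] at hij ⊢
    all_goals
      rw [Function.onFun, Set.disjoint_left]
      intro v hv hv'
      simp only [ppY, Fin.isValue, Matrix.cons_val_zero, Matrix.cons_val_one, Set.mem_ofPred_eq,
        Matrix.cons_val_fin_one] at hv hv'
      omega
  · -- X Y disjoint
    intro i j
    fin_cases i <;> fin_cases j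
    all_goals
      rw [Set.disjoint_left]
      intro v hv hv'
      simp only [ppX, ppY, Fin.isValue, Fin.zero_eta, Fin.mk_one, Matrix.cons_val_zero,
        Matrix.cons_val_one, Set.mem_ofPred_eq, Matrix.cons_val_fin_one] at hv hv'
      have := v.ne
      omega
  · -- hX
    intro i
    fin_cases i
    all_goals
      rintro _ ⟨v, hv, rfl⟩
      simp only [ppX, ppY, sanovGen, Fin.isValue, Fin.zero_eta, Fin.mk_one, Matrix.cons_val_zero,
        Matrix.cons_val_one, Set.mem_ofPred_eq, Set.mem_compl_iff, Matrix.cons_val_fin_one,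
        smul_x, smul_y, E12_apply_00, E12_apply_01, E12_apply_10, E12_apply_11, E21_apply_00,
        E21_apply_01, E21_apply_10, E21_apply_11] at hv ⊢
      have := v.ne
      omega
  · -- hY
    intro i
    fin_cases i
    all_goals
      rintro _ ⟨v, hv, rfl⟩
      simp only [ppX, ppY, sanovGen, Fin.isValue, Fin.zero_eta, Fin.mk_one, Matrix.cons_val_zero,
        Matrix.cons_val_one, Set.mem_ofPred_eq, Set.mem_compl_iff, Matrix.cons_val_fin_one,
        Pi.inv_apply, E12_inv, E21_inv,
        smul_x, smul_y, E12_apply_00, E12_apply_01, E12_apply_10, E12_apply_11, E21_apply_00,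
        E21_apply_01, E21_apply_10, E21_apply_11] at hv ⊢
      have := v.ne
      omega

/-! ### The Sanov subgroup -/

/-- the Sanov subgroup -/
def sanov : Subgroup SL(2, ℤ) := (FreeGroup.lift sanovGen).range

theorem E12_two_mem_sanov : E12 2 ∈ sanov :=
  ⟨FreeGroup.of 0, by simp [sanovGen]⟩

theorem E21_two_mem_sanov : E21 2 ∈ sanov :=
  ⟨FreeGroup.of 1, by simp [sanovGen]⟩

/-- the Sanov subgroup is free -/
noncomputable def sanovEquiv : FreeGroup (Fin 2) ≃* ↥sanov :=
  MonoidHom.ofInjective sanov_lift_injective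

instance : IsFreeGroup ↥sanov := IsFreeGroup.ofMulEquiv sanovEquiv

theorem E12_neg_two_mem_sanov : E12 (-2) ∈ sanov := by
  rw [← E12_inv]
  exact sanov.inv_mem E12_two_mem_sanov

theorem E21_neg_two_mem_sanov : E21 (-2) ∈ sanov := by
  rw [← E21_inv]
  exact sanov.inv_mem E21_two_mem_sanov

theorem E21_even_mem_sanov (k : ℤ) : E21 (2 * k) ∈ sanov := by
  rw [← E21_two_zpow]
  exact sanov.zpow_mem E21_two_mem_sanov k

theorem mem_sanov_of_mul_mem {g h : SL(2, ℤ)} (hh : h ∈ sanov) (hgh : g * h ∈ sanov) :
    g ∈ sanov := by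
  have := sanov.mul_mem hgh (sanov.inv_mem hh)
  rwa [mul_inv_cancel_right] at this

/-- Euclidean descent: matrices `≡ (1 *;* 1) mod (4,2;2,4)` lie in the Sanov subgroup. -/
theorem mem_sanov_aux : ∀ n : ℕ, ∀ g : SL(2, ℤ), (g 0 0).natAbs + (g 0 1).natAbs ≤ n →
    g 0 0 % 4 = 1 → g 0 1 % 2 = 0 → g 1 0 % 2 = 0 → g ∈ sanov := by
  intro n
  induction n using Nat.strong_induction_on with
  | _ n ih =>
    intro g hn ha hb hc
    have hd := sl2_det g
    by_cases hb0 : g 0 1 = 0
    · -- base case
      rw [hb0, zero_mul, sub_zero] at hd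
      have ha1 : g 0 0 = 1 := by
        rcases Int.eq_one_or_neg_one_of_mul_eq_one hd with h | h
        · exact h
        · rw [h] at ha
          omega
      rw [ha1, one_mul] at hd
      obtain ⟨k, hk⟩ : ∃ k, g 1 0 = 2 * k := ⟨g 1 0 / 2, by omega⟩
      have : g = E21 (2 * k) := by
        apply sl2_ext <;> simp [ha1, hb0, hd, hk]
      rw [this]
      exact E21_even_mem_sanov k
    · have ha0 : g 0 0 ≠ 0 := by
        intro h
        rw [h] at ha
        omega
      by_cases hab : (g 0 1).natAbs < (g 0 0).natAbs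
      · -- reduce `a` by `± 2 b`
        by_cases hs : 0 < g 0 0 * g 0 1
        · -- same sign: use E21 (-2)
          apply mem_sanov_of_mul_mem E21_neg_two_mem_sanov
          have hlt : ((g * E21 (-2)) 0 0).natAbs + ((g * E21 (-2)) 0 1).natAbs < n := by
            simp only [sl2_mul_apply, E21_apply_00, E21_apply_01, E21_apply_10, E21_apply_11]
            rcases lt_or_gt_of_ne ha0 with h1 | h1
            · have h2 : g 0 1 < 0 := by nlinarith
              omega
            · have h2 : 0 < g 0 1 := by nlinarith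
              omega
          refine ih _ hlt _ le_rfl ?_ ?_ ?_
          · simp only [sl2_mul_apply, E21_apply_00, E21_apply_10]
            omega
          · simp only [sl2_mul_apply, E21_apply_01, E21_apply_11]
            omega
          · simp only [sl2_mul_apply, E21_apply_00, E21_apply_10]
            have hd1 : g 1 1 % 2 = 1 := by
              have : (g 0 0 * g 1 1 - g 0 1 * g 1 0) % 2 = 1 := by rw [hd]; rfl
              have h3 : g 0 0 % 2 = 1 := by omega
              rcases Int.emod_two_eq_zero_or_one (g 1 1) with h4 | h4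
              · exfalso
                have : (g 0 0 * g 1 1 - g 0 1 * g 1 0) % 2 = 0 := by
                  rw [Int.sub_emod, Int.mul_emod, h4, Int.mul_emod (g 0 1), hb]
                  simp
                omega
              · exact h4
            omega
        · -- opposite signs: use E21 2
          apply mem_sanov_of_mul_mem E21_two_mem_sanov
          have hs' : g 0 0 * g 0 1 < 0 := by
            rcases lt_trichotomy (g 0 0 * g 0 1) 0 with h | h | h
            · exact h
            · exfalso
              rcases mul_eq_zero.mp h with h | h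
              · exact ha0 h
              · exact hb0 h
            · exact absurd h hs
          have hlt : ((g * E21 2) 0 0).natAbs + ((g * E21 2) 0 1).natAbs < n := by
            simp only [sl2_mul_apply, E21_apply_00, E21_apply_01, E21_apply_10, E21_apply_11]
            rcases lt_or_gt_of_ne ha0 with h1 | h1
            · have h2 : 0 < g 0 1 := by nlinarith
              omega
            · have h2 : g 0 1 < 0 := by nlinarith
              omega
          refine ih _ hlt _ le_rfl ?_ ?_ ?_
          · simp only [sl2_mul_apply, E21_apply_00, E21_apply_10]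
            omega
          · simp only [sl2_mul_apply, E21_apply_01, E21_apply_11]
            omega
          · simp only [sl2_mul_apply, E21_apply_00, E21_apply_10]
            omega
      · -- reduce `b` by `± 2 a`
        have hab' : (g 0 0).natAbs < (g 0 1).natAbs := by
          rcases lt_trichotomy (g 0 0).natAbs (g 0 1).natAbs with h | h | h
          · exact h
          · exfalso
            omega
          · exact absurd h hab
        by_cases hs : 0 < g 0 0 * g 0 1
        · apply mem_sanov_of_mul_mem E12_neg_two_mem_sanov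
          have hlt : ((g * E12 (-2)) 0 0).natAbs + ((g * E12 (-2)) 0 1).natAbs < n := by
            simp only [sl2_mul_apply, E12_apply_00, E12_apply_01, E12_apply_10, E12_apply_11]
            rcases lt_or_gt_of_ne ha0 with h1 | h1
            · have h2 : g 0 1 < 0 := by nlinarith
              omega
            · have h2 : 0 < g 0 1 := by nlinarith
              omega
          refine ih _ hlt _ le_rfl ?_ ?_ ?_
          · simp only [sl2_mul_apply, E12_apply_00, E12_apply_10]
            omega
          · simp only [sl2_mul_apply, E12_apply_01, E12_apply_11]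
            omega
          · simp only [sl2_mul_apply, E12_apply_00, E12_apply_10]
            omega
        · apply mem_sanov_of_mul_mem E12_two_mem_sanov
          have hs' : g 0 0 * g 0 1 < 0 := by
            rcases lt_trichotomy (g 0 0 * g 0 1) 0 with h | h | h
            · exact h
            · exfalso
              rcases mul_eq_zero.mp h with h | h
              · exact ha0 h
              · exact hb0 h
            · exact absurd h hs
          have hlt : ((g * E12 2) 0 0).natAbs + ((g * E12 2) 0 1).natAbs < n := by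
            simp only [sl2_mul_apply, E12_apply_00, E12_apply_01, E12_apply_10, E12_apply_11]
            rcases lt_or_gt_of_ne ha0 with h1 | h1
            · have h2 : 0 < g 0 1 := by nlinarith
              omega
            · have h2 : g 0 1 < 0 := by nlinarith
              omega
          refine ih _ hlt _ le_rfl ?_ ?_ ?_
          · simp only [sl2_mul_apply, E12_apply_00, E12_apply_10]
            omega
          · simp only [sl2_mul_apply, E12_apply_01, E12_apply_11]
            omega
          · simp only [sl2_mul_apply, E12_apply_00, E12_apply_10]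
            omega

theorem Gamma_four_le_sanov : Gamma 4 ≤ sanov := by
  intro g hg
  rw [Gamma_mem] at hg
  obtain ⟨h00, h01, h10, -⟩ := hg
  have e00 : g 0 0 % 4 = 1 := by
    have := (ZMod.intCast_eq_intCast_iff_dvd_sub (g 0 0) 1 4).mp (by simpa using h00)
    omega
  have e01 : g 0 1 % 4 = 0 := by
    have := (ZMod.intCast_zmod_eq_zero_iff_dvd (g 0 1) 4).mp (by simpa using h01)
    omega
  have e10 : g 1 0 % 4 = 0 := by
    have := (ZMod.intCast_zmod_eq_zero_iff_dvd (g 1 0) 4).mp (by simpa using h10)
    omega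
  exact mem_sanov_aux _ g le_rfl e00 (by omega) (by omega)

instance sanov_finiteIndex : sanov.FiniteIndex :=
  Subgroup.finiteIndex_of_le Gamma_four_le_sanov

end Fermat.Agent.S41lib.PD.Heis
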