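/-
S41lib / PD / Heis / Transfer (lead).

Transfer of Heisenberg lifts: if `Γ' ≤ Γ` has finite index `n` and `ζ'` is a Heisenberg lift of
`(φ|Γ', φ'|Γ')`, then
`Z γ := ∑ₓ ζ' (c γ x) + ∑ₓ φ (r (γ x)) · φ' (c γ x)`   (`r` a transversal of `Γ ⧸ Γ'`,
`γ · r x = r (γ x) · c γ x`)
satisfies `Z (γ γ') = Z γ + Z γ' + n · φ γ · φ' γ'`.  Over `ℚ` this gives a Heisenberg lift of
`(φ, φ')` on `Γ`.
-/
import Mathlib
import Fermat.Agent.S41lib.PD.Heis.Basic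

set_option autoImplicit false

namespace Fermat.Agent.S41lib.PD.Heis

variable {Γ : Type*} [Group Γ] {R : Type*} [CommRing R] (Γ' : Subgroup Γ)

/-- the chosen representative of a left coset -/
noncomputable def tr (x : Γ ⧸ Γ') : Γ := Quotient.out x

theorem mk_tr (x : Γ ⧸ Γ') : ((tr Γ' x : Γ) : Γ ⧸ Γ') = x := QuotientGroup.out_eq' x

theorem coc_mem (γ : Γ) (x : Γ ⧸ Γ') : (tr Γ' (γ • x))⁻¹ * γ * tr Γ' x ∈ Γ' := by
  rw [mul_assoc, ← QuotientGroup.eq, mk_tr]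
  have h : ((γ * tr Γ' x : Γ) : Γ ⧸ Γ') = γ • ((tr Γ' x : Γ) : Γ ⧸ Γ') := rfl
  rw [h, mk_tr]

/-- the transfer cocycle: `γ · r x = r (γ x) · c γ x` -/
noncomputable def coc (γ : Γ) (x : Γ ⧸ Γ') : Γ' := ⟨(tr Γ' (γ • x))⁻¹ * γ * tr Γ' x, coc_mem Γ' γ x⟩

@[simp] theorem coe_coc (γ : Γ) (x : Γ ⧸ Γ') :
    ((coc Γ' γ x : Γ') : Γ) = (tr Γ' (γ • x))⁻¹ * γ * tr Γ' x := rfl

theorem coc_mul (γ γ' : Γ) (x : Γ ⧸ Γ') :
    coc Γ' (γ * γ') x = coc Γ' γ (γ' • x) * coc Γ' γ' x := by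
  apply Subtype.ext
  rw [Subgroup.coe_mul, coe_coc, coe_coc, coe_coc, mul_smul]
  group

/-- restriction of an additive character to a subgroup -/
def resHom (φ : Additive Γ →+ R) : Additive Γ' →+ R :=
  φ.comp (MonoidHom.toAdditive Γ'.subtype)

@[simp] theorem resHom_apply (φ : Additive Γ →+ R) (δ : Γ') :
    resHom Γ' φ (Additive.ofMul δ) = φ (Additive.ofMul (δ : Γ)) := rfl

theorem map_coc (φ : Additive Γ →+ R) (γ : Γ) (x : Γ ⧸ Γ') :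
    φ (Additive.ofMul ((coc Γ' γ x : Γ') : Γ)) =
      φ (Additive.ofMul γ) + φ (Additive.ofMul (tr Γ' x)) - φ (Additive.ofMul (tr Γ' (γ • x))) := by
  rw [coe_coc, ofMul_mul, ofMul_mul, map_add, map_add, ofMul_inv, map_neg]
  ring

variable [Fintype (Γ ⧸ Γ')]

theorem sum_smul_eq (f : Γ ⧸ Γ' → R) (γ : Γ) : ∑ x, f (γ • x) = ∑ x, f x :=
  Equiv.sum_comp (MulAction.toPerm γ) f

theorem sum_map_coc (φ : Additive Γ →+ R) (γ : Γ) :
    ∑ x, φ (Additive.ofMul ((coc Γ' γ x : Γ') : Γ)) =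
      (Fintype.card (Γ ⧸ Γ') : R) * φ (Additive.ofMul γ) := by
  simp_rw [map_coc]
  rw [Finset.sum_sub_distrib, Finset.sum_add_distrib,
    sum_smul_eq Γ' (fun x => φ (Additive.ofMul (tr Γ' x))) γ, Finset.sum_const, Finset.card_univ,
    nsmul_eq_mul]
  ring

/-- the transferred function -/
noncomputable def transferFun (φ φ' : Additive Γ →+ R) (ζ' : Γ' → R) (γ : Γ) : R :=
  ∑ x, ζ' (coc Γ' γ x) +
    ∑ x, φ (Additive.ofMul (tr Γ' (γ • x))) * φ' (Additive.ofMul ((coc Γ' γ x : Γ') : Γ))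

theorem transferFun_mul (φ φ' : Additive Γ →+ R) (ζ' : Γ' → R)
    (h : IsHeisLift (resHom Γ' φ) (resHom Γ' φ') ζ') (γ γ' : Γ) :
    transferFun Γ' φ φ' ζ' (γ * γ') = transferFun Γ' φ φ' ζ' γ + transferFun Γ' φ φ' ζ' γ' +
      (Fintype.card (Γ ⧸ Γ') : R) * (φ (Additive.ofMul γ) * φ' (Additive.ofMul γ')) := by
  unfold transferFun
  -- first sums
  have h1 : ∑ x, ζ' (coc Γ' (γ * γ') x) = ∑ x, ζ' (coc Γ' γ x) + ∑ x, ζ' (coc Γ' γ' x) +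
      ∑ x, φ (Additive.ofMul ((coc Γ' γ (γ' • x) : Γ') : Γ)) *
        φ' (Additive.ofMul ((coc Γ' γ' x : Γ') : Γ)) := by
    simp_rw [coc_mul, h.map_mul, resHom_apply]
    rw [Finset.sum_add_distrib, Finset.sum_add_distrib,
      sum_smul_eq Γ' (fun x => ζ' (coc Γ' γ x)) γ']
  -- second sums
  have h2 : ∑ x, φ (Additive.ofMul (tr Γ' ((γ * γ') • x))) *
        φ' (Additive.ofMul ((coc Γ' (γ * γ') x : Γ') : Γ)) =
      ∑ x, φ (Additive.ofMul (tr Γ' (γ • x))) * φ' (Additive.ofMul ((coc Γ' γ x : Γ') : Γ)) +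
      ∑ x, φ (Additive.ofMul (tr Γ' ((γ * γ') • x))) *
        φ' (Additive.ofMul ((coc Γ' γ' x : Γ') : Γ)) := by
    simp_rw [coc_mul, Subgroup.coe_mul, ofMul_mul, map_add, mul_add]
    rw [Finset.sum_add_distrib]
    congr 1
    simp_rw [mul_smul]
    exact sum_smul_eq Γ' (fun x => φ (Additive.ofMul (tr Γ' (γ • x))) *
      φ' (Additive.ofMul ((coc Γ' γ x : Γ') : Γ))) γ'
  -- the cross term
  have h3 : ∑ x, φ (Additive.ofMul ((coc Γ' γ (γ' • x) : Γ') : Γ)) *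
        φ' (Additive.ofMul ((coc Γ' γ' x : Γ') : Γ)) =
      (Fintype.card (Γ ⧸ Γ') : R) * (φ (Additive.ofMul γ) * φ' (Additive.ofMul γ')) +
      ∑ x, φ (Additive.ofMul (tr Γ' (γ' • x))) * φ' (Additive.ofMul ((coc Γ' γ' x : Γ') : Γ)) -
      ∑ x, φ (Additive.ofMul (tr Γ' ((γ * γ') • x))) *
        φ' (Additive.ofMul ((coc Γ' γ' x : Γ') : Γ)) := by
    simp_rw [map_coc Γ' φ γ, ← mul_smul, sub_mul, add_mul]
    rw [Finset.sum_sub_distrib, Finset.sum_add_distrib, ← Finset.mul_sum, sum_map_coc]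
    ring
  rw [h1, h2, h3]
  ring

/-- **Transfer of Heisenberg lifts** (over `ℚ`). -/
theorem exists_heisLift_of_subgroup (φ φ' : Additive Γ →+ ℚ) (ζ' : Γ' → ℚ)
    (h : IsHeisLift (resHom Γ' φ) (resHom Γ' φ') ζ') :
    ∃ ζ : Γ → ℚ, IsHeisLift φ φ' ζ := by
  have hn : Fintype.card (Γ ⧸ Γ') ≠ 0 := Fintype.card_ne_zero
  exact ⟨_, IsHeisLift.div_nat hn (transferFun_mul Γ' φ φ' ζ' h)⟩

end Fermat.Agent.S41lib.PD.Heis
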