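/-
S41lib / PD / Heis / Exists (lead).

**Heisenberg lifts exist on every finite-index subgroup of `SL(2,ℤ)`** (with values in `ℚ`):
`Γ ∩ Sanov` is free (Nielsen–Schreier) of finite index in `Γ`; lift there and transfer.
-/
import Mathlib
import Fermat.Agent.S41lib.PD.Heis.Transfer
import Fermat.Agent.S41lib.PD.Heis.Free
import Fermat.Agent.S41lib.PD.Heis.Sanov

set_option autoImplicit false

namespace Fermat.Agent.S41lib.PD.Heis

open scoped MatrixGroups

/-- `H ∩ K` seen inside `K` and inside `H` -/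
def subgroupOfSwap {G : Type*} [Group G] (H K : Subgroup G) :
    ↥(H.subgroupOf K) ≃* ↥(K.subgroupOf H) where
  toFun x := ⟨⟨x.1.1, x.2⟩, x.1.2⟩
  invFun y := ⟨⟨y.1.1, y.2⟩, y.1.2⟩
  left_inv _ := rfl
  right_inv _ := rfl
  map_mul' _ _ := rfl

/-- Heisenberg lifts exist on every subgroup of a free group. -/
theorem exists_heisLift_of_le_free {G : Type} [Group G] (F Γ : Subgroup G) [IsFreeGroup ↥F]
    {R : Type*} [CommRing R] (φ φ' : Additive ↥(F.subgroupOf Γ) →+ R) :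
    ∃ ζ : ↥(F.subgroupOf Γ) → R, IsHeisLift φ φ' ζ :=
  exists_heisLift_of_mulEquiv (subgroupOfSwap F Γ)
    (fun ψ ψ' => exists_heisLift_of_isFreeGroup ψ ψ') φ φ'

/-- **Heisenberg lifts exist on every finite-index subgroup of `SL(2,ℤ)`.** -/
theorem exists_heisLift (Γ : Subgroup SL(2, ℤ)) [Γ.FiniteIndex] (φ φ' : Additive ↥Γ →+ ℚ) :
    ∃ ζ : ↥Γ → ℚ, IsHeisLift φ φ' ζ := by
  classical
  have : (sanov.subgroupOf Γ).FiniteIndex := inferInstance
  have : Fintype (↥Γ ⧸ sanov.subgroupOf Γ) := Subgroup.fintypeQuotientOfFiniteIndex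
  obtain ⟨ζ', hζ'⟩ := exists_heisLift_of_le_free sanov Γ
    (resHom (sanov.subgroupOf Γ) φ) (resHom (sanov.subgroupOf Γ) φ')
  exact exists_heisLift_of_subgroup (sanov.subgroupOf Γ) φ φ' ζ' hζ'

end Fermat.Agent.S41lib.PD.Heis
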